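import Fermat.Agent.Lib.RR.Adeles
import Fermat.Agent.Lib.RR.H864.FF1Modular

/-!
# S37 (helper39): the Riemann bound (input (I5) of the bounded-homomorphism route)

For a function field `F/K` satisfying the standing hypotheses `FF1` of the shared library
`Lib/RR`, every divisor of degree `0` is linearly equivalent to a divisor of `ℓ¹`-norm at most
`2 g` (`g = genusFF K F`): by Riemann's inequality `ℓ(D + g • P₀) ≥ 1`, so `D + g • P₀ + div f ≥ 0`
for some `f ≠ 0`.

* `exists_l1_bound K F`  : the statement for any `[FF1 K F]`, with the `ℓ¹`-norm spelled out as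
  `E.sum fun _ n => n.natAbs` (this is definitionally `H697.l1norm E`, so the statement is
  definitionally `H697.RiemannBound K F` of `origin/helper697`).
* `exists_l1_bound_modular N` : the instance for `F = modularFunctionFieldBar N` over `ℚ̄`.
-/

set_option autoImplicit false

noncomputable section

open AlgebraicCurve Fermat.Agent.Lib.RR

namespace Fermat.Agent.S37.H39

variable (K F : Type*) [Field K] [Field F] [Algebra K F]

/-- An effective divisor, all of whose places have degree one, has `ℓ¹`-norm equal to its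
degree. -/
theorem sum_natAbs_eq_degree_of_nonneg (hdeg : ∀ v : Place K F, v.deg = 1)
    {E : Divisor K F} (hE : 0 ≤ E) :
    ((E.sum fun _ n => n.natAbs : ℕ) : ℤ) = Divisor.degree E := by
  rw [degree_eq_sum, Finsupp.sum, Nat.cast_sum]
  refine Finset.sum_congr rfl fun v _ => ?_
  have h0 : 0 ≤ E v := by simpa using Finsupp.le_def.mp hE v
  rw [hdeg v, Int.natCast_natAbs, abs_of_nonneg h0]
  simp

/-- **Riemann bound.**  Every divisor of degree `0` differs by a principal divisor from a divisor
of `ℓ¹`-norm `≤ 2 g`. -/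
theorem exists_l1_bound [FF1 K F] :
    ∃ B : ℕ, ∀ D : Divisor K F, Divisor.degree D = 0 →
      ∃ E : Divisor K F, (E.sum fun _ n => n.natAbs) ≤ B ∧
        D - E ∈ Divisor.principal (K := K) (F := F) := by
  classical
  obtain ⟨P₀⟩ := (FF1.nonempty_place : Nonempty (Place K F))
  set g : ℕ := genusFF K F with hg
  refine ⟨g + g, fun D hD => ?_⟩
  -- the auxiliary divisor `D' = D + g • P₀` has degree `g`, hence `ℓ(D') ≥ 1`
  set D' : Divisor K F := D + Finsupp.single P₀ (g : ℤ) with hD'
  have hdegD' : Divisor.degree D' = g := by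
    rw [hD', map_add, hD, Divisor.degree_single, FF1.deg_eq_one P₀]; simp
  have hell : 1 ≤ ell D' := by
    have h := riemann_inequality_genusFF (K := K) (F := F) D'
    rw [hdegD'] at h
    have : (1 : ℤ) ≤ (ell D' : ℤ) := by linarith
    exact_mod_cast this
  -- a nonzero function in `L(D')`
  have hne : riemannRochSpace D' ≠ ⊥ := by
    intro hbot
    have : ell D' = 0 := by
      unfold ell; rw [hbot]; exact finrank_bot K F
    omega
  obtain ⟨f, hf, hf0⟩ := (Submodule.ne_bot_iff _).mp hne
  rw [mem_L_iff] at hf
  -- `E' = D' + div f ≥ 0`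
  set E' : Divisor K F := D' + divOf (K := K) f hf0 with hE'
  have hE'nn : 0 ≤ E' := by
    rw [Finsupp.le_def]
    intro v
    rcases hf v with h | h
    · exact absurd h hf0
    · simp only [Finsupp.coe_zero, Pi.zero_apply, hE', Finsupp.coe_add, Pi.add_apply,
        divOf_apply]
      omega
  have hdegE' : Divisor.degree E' = g := by
    rw [hE', map_add, degree_divOf, add_zero, hdegD']
  have hnormE' : (E'.sum fun _ n => n.natAbs) = g := by
    have h := sum_natAbs_eq_degree_of_nonneg K F FF1.deg_eq_one hE'nn
    rw [hdegE'] at h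
    exact_mod_cast h
  refine ⟨E' - Finsupp.single P₀ (g : ℤ), ?_, ?_⟩
  · -- `ℓ¹`-norm of a difference
    have hsub : ((E' - Finsupp.single P₀ (g : ℤ)).sum fun _ n => n.natAbs)
        ≤ (E'.sum fun _ n => n.natAbs) + ((Finsupp.single P₀ (g : ℤ)).sum fun _ n => n.natAbs) := by
      have h1 : ((E' - Finsupp.single P₀ (g : ℤ)).sum fun _ n => n.natAbs)
          = ∑ x ∈ E'.support ∪ (Finsupp.single P₀ (g : ℤ)).support,
              ((E' - Finsupp.single P₀ (g : ℤ)) x).natAbs :=
        Finsupp.sum_of_support_subset _ Finsupp.support_sub _ (fun _ _ => rfl)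
      have h2 : (E'.sum fun _ n => n.natAbs)
          = ∑ x ∈ E'.support ∪ (Finsupp.single P₀ (g : ℤ)).support, (E' x).natAbs :=
        Finsupp.sum_of_support_subset _ Finset.subset_union_left _ (fun _ _ => rfl)
      have h3 : ((Finsupp.single P₀ (g : ℤ)).sum fun _ n => n.natAbs)
          = ∑ x ∈ E'.support ∪ (Finsupp.single P₀ (g : ℤ)).support,
              ((Finsupp.single P₀ (g : ℤ)) x).natAbs :=
        Finsupp.sum_of_support_subset _ Finset.subset_union_right _ (fun _ _ => rfl)
      rw [h1, h2, h3, ← Finset.sum_add_distrib]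
      refine Finset.sum_le_sum fun x _ => ?_
      rw [Finsupp.sub_apply]
      omega
    have hsingle : ((Finsupp.single P₀ (g : ℤ)).sum fun _ n => n.natAbs) = g := by
      rw [Finsupp.sum_single_index (by simp)]; simp
    omega
  · -- `D - (E' - g • P₀) = - div f`
    have hkey : D - (E' - Finsupp.single P₀ (g : ℤ)) = -divOf (K := K) f hf0 := by
      rw [hE', hD']; abel
    rw [hkey]
    refine neg_mem ?_
    exact ⟨f, hf0, fun v => divOf_apply f hf0 v⟩

/-- The Riemann bound for the modular function field `ℚ̄(j(q^d) : d ∣ N)`. -/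
theorem exists_l1_bound_modular (N : ℕ) [NeZero N] :
    ∃ B : ℕ, ∀ D : Divisor (AlgebraicClosure ℚ) ↥(ModularCurve.modularFunctionFieldBar N),
      Divisor.degree D = 0 →
      ∃ E : Divisor (AlgebraicClosure ℚ) ↥(ModularCurve.modularFunctionFieldBar N),
        (E.sum fun _ n => n.natAbs) ≤ B ∧
        D - E ∈ Divisor.principal (K := AlgebraicClosure ℚ)
          (F := ↥(ModularCurve.modularFunctionFieldBar N)) := by
  haveI := H864.ff1_modularFunctionFieldBar N
  exact exists_l1_bound (AlgebraicClosure ℚ) ↥(ModularCurve.modularFunctionFieldBar N)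

end Fermat.Agent.S37.H39
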